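import Mathlib
import Fermat.Agent.LT.T6.Spec

/-!
# Row LT, tower T6, station T6.20x (helper698): soft properties of the convolution `T6.convInt`

OFF-MAIN.  Mathlib + `LT/T6/Spec.lean` (`convInt` only).  General topological group `H` with its
Borel `σ`-algebra:

* `convInt_eq_zero_of698`, `exists_of_convInt_ne_zero698`: the convolution vanishes at `z` unless
  `φ y ≠ 0` and `ψ (y⁻¹ z) ≠ 0` for some `y`;
* `hasCompactSupport_convInt698`: `supp (φ ⋆ ψ) ⊆ supp φ · supp ψ`;
* `continuous_convInt698`: the convolution of continuous functions, the first with compact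
  support, is continuous;
* `convInt_mul_left698`: `(φ ⋆ ψ)(k z) = ∫ φ(k y) ψ(y⁻¹ z) dy` (left invariant measure);
* `convInt_mul_right698`: `(φ ⋆ ψ)(z k) = ∫ φ(y) ψ(y⁻¹ z k) dy`.
-/

set_option autoImplicit false

open MeasureTheory
open scoped Pointwise

noncomputable section

namespace Fermat.Agent.LT.T6.H698

open Fermat.Agent.LT.T6

section ConvSoft

variable {H : Type} [Group H] [MeasurableSpace H]

theorem convInt_apply698 (μ : Measure H) (φ ψ : H → ℂ) (z : H) :
    convInt μ φ ψ z = ∫ y, φ y * ψ (y⁻¹ * z) ∂μ := rfl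

theorem convInt_eq_zero_of698 (μ : Measure H) (φ ψ : H → ℂ) (z : H)
    (h : ∀ y, φ y = 0 ∨ ψ (y⁻¹ * z) = 0) : convInt μ φ ψ z = 0 := by
  rw [convInt_apply698]
  have h0 : (fun y => φ y * ψ (y⁻¹ * z)) = fun _ => (0 : ℂ) := by
    funext y
    rcases h y with h1 | h1
    · rw [h1, zero_mul]
    · rw [h1, mul_zero]
  rw [h0, integral_zero]

theorem exists_of_convInt_ne_zero698 (μ : Measure H) (φ ψ : H → ℂ) (z : H)
    (h : convInt μ φ ψ z ≠ 0) : ∃ y, φ y ≠ 0 ∧ ψ (y⁻¹ * z) ≠ 0 := by
  by_contra hc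
  apply h
  apply convInt_eq_zero_of698
  intro y
  by_cases h1 : φ y = 0
  · exact Or.inl h1
  · right
    by_contra h2
    exact hc ⟨y, h1, h2⟩

theorem convInt_mul_right698 (μ : Measure H) (φ ψ : H → ℂ) (z k : H) :
    convInt μ φ ψ (z * k) = ∫ y, φ y * ψ (y⁻¹ * z * k) ∂μ := by
  rw [convInt_apply698]
  simp only [mul_assoc]

theorem convInt_mul_left698 [MeasurableMul H] (μ : Measure H) [μ.IsMulLeftInvariant]
    (φ ψ : H → ℂ) (k z : H) :
    convInt μ φ ψ (k * z) = ∫ y, φ (k * y) * ψ (y⁻¹ * z) ∂μ := by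
  rw [convInt_apply698, ← integral_mul_left_eq_self (fun y => φ y * ψ (y⁻¹ * (k * z))) k]
  congr 1
  funext y
  congr 2
  group

variable [TopologicalSpace H] [IsTopologicalGroup H]

theorem hasCompactSupport_convInt698 [T2Space H] (μ : Measure H) {φ ψ : H → ℂ}
    (hφ : HasCompactSupport φ) (hψ : HasCompactSupport ψ) :
    HasCompactSupport (convInt μ φ ψ) := by
  have hK : IsCompact (tsupport φ * tsupport ψ) := IsCompact.mul hφ hψ
  refine HasCompactSupport.intro hK ?_
  intro z hz
  apply convInt_eq_zero_of698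
  intro y
  by_contra hc
  obtain ⟨hc1, hc2⟩ := not_or.1 hc
  apply hz
  refine Set.mem_mul.2 ⟨y, subset_tsupport _ hc1, y⁻¹ * z, subset_tsupport _ hc2, ?_⟩
  group

theorem continuous_convInt698 [BorelSpace H] [LocallyCompactSpace H] [FirstCountableTopology H]
    (μ : Measure H) [IsLocallyFiniteMeasure μ] {φ ψ : H → ℂ}
    (hφ : Continuous φ) (hφs : HasCompactSupport φ) (hψ : Continuous ψ) :
    Continuous (convInt μ φ ψ) := by
  have h1 : convInt μ φ ψ = fun z => ∫ y in tsupport φ, φ y * ψ (y⁻¹ * z) ∂μ := by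
    funext z
    rw [convInt_apply698]
    refine (setIntegral_eq_integral_of_forall_compl_eq_zero fun y hy => ?_).symm
    rw [image_eq_zero_of_notMem_tsupport hy, zero_mul]
  rw [h1]
  have hc : Continuous (Function.uncurry fun (z : H) (y : H) => φ y * ψ (y⁻¹ * z)) := by
    refine (hφ.comp continuous_snd).mul (hψ.comp ?_)
    exact (continuous_inv.comp continuous_snd).mul continuous_fst
  exact continuous_parametric_integral_of_continuous hc hφs

end ConvSoft

end Fermat.Agent.LT.T6.H698

end
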