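import Fermat.Agent.LT.T6.H830.HCSpec

/-!
# Row LT, tower T6, leaf T6.29.C2 `SphCKernelC` (helper698)

OFF-MAIN.  Proves `H830.SphCKernelC` of `LT/T6/H830/HCSpec.lean` (helper830, sha256 c3e7d846)
VERBATIM: for `u ≥ 0` and all `ν : ℂ`,
`sphC ν (cosh u) · sinh u = (1/2) ∫_{-u}^{u} e^{ρν} dρ`.

Route: `√(cosh² u - 1) = sinh u`; affine substitution `y = cosh u + x sinh u`
(`smul_integral_comp_add_mul`, valid for `sinh u = 0` too); `y = e^ρ`
(`integral_deriv_smul_comp''`); `(e^ρ)^(-1-ν) e^ρ = e^{-ρν}`; `ρ ↦ -ρ`.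
-/

set_option autoImplicit false

open MeasureTheory

noncomputable section

namespace Fermat.Agent.LT.T6.H698

open Fermat.Agent.LT.T6

theorem sqrt_cosh_sq_sub_one698 {u : ℝ} (hu : 0 ≤ u) :
    Real.sqrt (Real.cosh u ^ 2 - 1) = Real.sinh u := by
  have h : Real.cosh u ^ 2 - 1 = Real.sinh u ^ 2 := by
    rw [Real.cosh_sq]; ring
  rw [h, Real.sqrt_sq (Real.sinh_nonneg_iff.2 hu)]

/-- `(e^ρ)^z = e^{ρ z}` -/
theorem exp_cpow698 (ρ : ℝ) (z : ℂ) :
    (((Real.exp ρ : ℝ) : ℂ)) ^ z = Complex.exp ((ρ : ℂ) * z) := by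
  have h0 : (((Real.exp ρ : ℝ) : ℂ)) ≠ 0 := Complex.ofReal_ne_zero.2 (Real.exp_ne_zero ρ)
  rw [Complex.cpow_def_of_ne_zero h0, ← Complex.ofReal_log (Real.exp_pos ρ).le, Real.log_exp]

/-- the integral of `y ^ z` over `[e^{-u}, e^u]` -/
theorem integral_cpow_exp698 (ν : ℂ) (u : ℝ) :
    (∫ y in (Real.exp (-u))..(Real.exp u), (((y : ℝ) : ℂ)) ^ (-1 - ν))
      = ∫ ρ in (-u)..u, Complex.exp ((ρ : ℂ) * ν) := by
  -- substitution `y = e^ρ`
  have hsub : (∫ ρ in (-u)..u,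
      ((fun y : ℝ => (((y : ℝ) : ℂ)) ^ (-1 - ν)) ∘ Real.exp) ρ * ((Real.exp ρ : ℝ) : ℂ))
      = ∫ y in (Real.exp (-u))..(Real.exp u), (((y : ℝ) : ℂ)) ^ (-1 - ν) := by
    have key := intervalIntegral.integral_deriv_smul_comp''
      (a := -u) (b := u) (f := Real.exp) (f' := Real.exp)
      (g := fun y : ℝ => (((y : ℝ) : ℂ)) ^ (-1 - ν))
      Real.continuous_exp.continuousOn
      (fun x _ => (Real.hasDerivAt_exp x).hasDerivWithinAt)
      Real.continuous_exp.continuousOn ?_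
    · simp only [Complex.real_smul] at key
      rw [← key]
      refine intervalIntegral.integral_congr fun ρ _ => ?_
      simp only [Function.comp]
      ring
    · -- continuity of `y ↦ y ^ z` on the image (positive reals)
      intro y hy
      obtain ⟨x, -, rfl⟩ := hy
      have hpos : (0 : ℝ) < Real.exp x := Real.exp_pos x
      refine ContinuousAt.continuousWithinAt ?_
      refine ContinuousAt.cpow Complex.continuous_ofReal.continuousAt continuousAt_const ?_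
      exact Complex.ofReal_mem_slitPlane.2 hpos
  rw [← hsub]
  -- `(e^ρ)^(-1-ν) e^ρ = e^{-ρν}`, then `ρ ↦ -ρ`
  have hint : ∀ ρ : ℝ,
      ((fun y : ℝ => (((y : ℝ) : ℂ)) ^ (-1 - ν)) ∘ Real.exp) ρ * ((Real.exp ρ : ℝ) : ℂ)
        = Complex.exp ((((-ρ : ℝ)) : ℂ) * ν) := by
    intro ρ
    simp only [Function.comp]
    rw [exp_cpow698, Complex.ofReal_exp, ← Complex.exp_add]
    congr 1
    push_cast
    ring
  simp only [hint]
  have hneg := intervalIntegral.integral_comp_neg (a := -u) (b := u)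
    (fun ρ : ℝ => Complex.exp ((ρ : ℂ) * ν))
  rw [neg_neg] at hneg
  exact hneg

/-- **T6.29.C2.** -/
theorem sphCKernelC698 : H830.SphCKernelC := by
  intro ν u hu
  rw [sphC, sqrt_cosh_sq_sub_one698 hu, ← integral_cpow_exp698]
  have haff := intervalIntegral.smul_integral_comp_add_mul (a := (-1 : ℝ)) (b := 1)
    (fun y : ℝ => (((y : ℝ) : ℂ)) ^ (-1 - ν)) (Real.sinh u) (Real.cosh u)
  have e1 : Real.cosh u + Real.sinh u * (-1) = Real.exp (-u) := by
    rw [mul_neg_one, ← sub_eq_add_neg, Real.cosh_sub_sinh]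
  have e2 : Real.cosh u + Real.sinh u * 1 = Real.exp u := by
    rw [mul_one, Real.cosh_add_sinh]
  rw [e1, e2, Complex.real_smul] at haff
  rw [← haff]
  have e3 : (∫ x in (-1 : ℝ)..1, ((Real.cosh u + x * Real.sinh u : ℝ) : ℂ) ^ (-1 - ν))
      = ∫ x in (-1 : ℝ)..1, ((Real.cosh u + Real.sinh u * x : ℝ) : ℂ) ^ (-1 - ν) := by
    refine intervalIntegral.integral_congr fun x _ => ?_
    simp only [mul_comm]
  rw [e3]
  ring

end Fermat.Agent.LT.T6.H698

end
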