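import Mathlib
import Fermat.Agent.LT.T6.H626.AbelCut

/-!
# Row LT, tower T6, leaf T6.20a.2 `ParamIntC626` (helper698)

OFF-MAIN.  Spec: `LT/T6/H626/AbelCut.lean` (helper626, sha256 6a4d529b), byte-identical copy.

`paramIntC698 : H626.ParamIntC626`: if `G` is smooth on `ℝ^{m+1}` and vanishes for `|p 0| > V`,
then `t ↦ ∫_ℝ G(v, t) dv` is smooth on `ℝ^m`.

Proof: the parametric integral is the value at `0` of the convolution of the locally integrable
function `1` with `g_t(x) = G(-x, t)`, whose supports lie in the fixed compact `[-V, V]`;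
apply `contDiffOn_convolution_right_with_param_comp`.
-/

set_option autoImplicit false

open scoped ContDiff Convolution
open MeasureTheory

noncomputable section

namespace Fermat.Agent.LT.T6.H698

open Fermat.Agent.LT.T6

/-- The map `(t, x) ↦ (-x, t)` from `ℝ^m × ℝ` to `ℝ^{m+1}` is smooth. -/
theorem contDiff_consNeg698 (m : ℕ) :
    ContDiff ℝ ∞ (fun q : (Fin m → ℝ) × ℝ => (Fin.cons (-q.2) q.1 : Fin (m + 1) → ℝ)) := by
  rw [contDiff_pi]
  intro i
  refine Fin.cases ?_ (fun j => ?_) i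
  · simpa using (contDiff_snd (𝕜 := ℝ) (E := Fin m → ℝ) (F := ℝ)).neg
  · simp only [Fin.cons_succ]
    exact (contDiff_apply ℝ ℝ j).comp (contDiff_fst (𝕜 := ℝ) (E := Fin m → ℝ) (F := ℝ))

/-- **T6.20a.2 PARAM-INT**: a parametric integral of a smooth function with uniformly compact
support in the integration variable is smooth. -/
theorem paramIntC698 : H626.ParamIntC626 := by
  intro m G hG hV
  obtain ⟨V, hV⟩ := hV
  let g : (Fin m → ℝ) → ℝ → ℂ := fun t x => G (Fin.cons (-x) t)
  have hg : ContDiffOn ℝ ((⊤ : ℕ∞) : WithTop ℕ∞) (↿g)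
      ((Set.univ : Set (Fin m → ℝ)) ×ˢ (Set.univ : Set ℝ)) :=
    (hG.comp (contDiff_consNeg698 m)).contDiffOn
  have hk : IsCompact (Set.Icc (-V) V) := isCompact_Icc
  have hgs : ∀ p, ∀ x, p ∈ (Set.univ : Set (Fin m → ℝ)) → x ∉ Set.Icc (-V) V → g p x = 0 := by
    intro p x _ hx
    apply hV
    simp only [Fin.cons_zero, abs_neg]
    by_contra h
    exact hx (abs_le.mp (not_lt.mp h))
  have hf : LocallyIntegrable (fun _ : ℝ => (1 : ℝ)) volume := locallyIntegrable_const 1
  have key := contDiffOn_convolution_right_with_param_comp (𝕜 := ℝ) (μ := (volume : Measure ℝ))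
    (ContinuousLinearMap.lsmul ℝ ℝ) (v := fun _ : Fin m → ℝ => (0 : ℝ)) contDiffOn_const
    isOpen_univ hk hgs hf hg
  rw [contDiffOn_univ] at key
  have heq : (fun t : Fin m → ℝ => ∫ v : ℝ, G (Fin.cons v t : Fin (m + 1) → ℝ)) =
      fun t => ((fun _ : ℝ => (1 : ℝ)) ⋆[ContinuousLinearMap.lsmul ℝ ℝ, volume] g t) 0 := by
    funext t
    simp only [convolution, ContinuousLinearMap.lsmul_apply, one_smul, zero_sub, g, neg_neg]
  rw [heq]
  exact key

end Fermat.Agent.LT.T6.H698

end
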